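-- Statement S37: Eichler-Shimura congruence relation in the packaged form SpecializationExists.
-- ES.specializationExists_of_genusEqAll (Hecke/, ES/, Val/GaloisModL*) + the genus equality of L-GEN (Good.FinalH3.genusFF_modL_eq_bar, unconditional).
import Fermat.Statements.S37
import Fermat.Agent.ES.Plug
import Fermat.Agent.Good.GenFinalH3

set_option autoImplicit false
open ModularCurve

namespace Fermat.Agent.S37

theorem result (N p : ℕ) [NeZero N] (hcomm : ModularCurve.HeckeOperatorsCommuteBar N) : letI := ModularCurve.heckeModuleBar N; ∀ (_ : SMulCommClass (AlgebraicClosure ℚ ≃ₐ[ℚ] AlgebraicClosure ℚ) ModularCurve.HeckeAlg (ModularCurve.JZero N)), ModularCurve.SpecializationExists (K := ℚ) (L := AlgebraicClosure ℚ) N p (ModularCurve.JZero N) :=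
  Fermat.Agent.ES.specializationExists_of_genusEqAll N p hcomm fun ℓ hℓ hℓN A hA => by
    haveI : Fact ℓ.Prime := ⟨hℓ⟩
    exact Fermat.Agent.Good.FinalH3.genusFF_modL_eq_bar N hℓN A hA

end Fermat.Agent.S37
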