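import Fermat.Statements.S22
import Fermat.Agent.S22.TrivialCases
import Fermat.Agent.S22.Assembly
import Fermat.Agent.S22.H22EichlerMap
import Fermat.Agent.S22.H22EichlerPoly

set_option autoImplicit false
open CuspForm

namespace Fermat.Agent.S22

theorem result (N : ℕ) [NeZero N] (k : ℤ) (S : Set ℕ) :
    Module.Finite ℤ (CuspForm.heckeAlgebra N k S) := by
  by_cases hk : k ≤ 0 ∨ Odd k
  · exact moduleFinite_heckeAlgebra_of_nonpos_or_odd N k S hk
  · have hk0 : 0 < k := not_le.mp fun h => hk (Or.inl h)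
    have hke : Even k := Int.not_odd_iff_even.mp fun h => hk (Or.inr h)
    have h2 : 2 ≤ k := by
      obtain ⟨r, hr⟩ := hke
      omega
    obtain ⟨m, hm⟩ : ∃ m : ℕ, k = (m : ℤ) + 2 := ⟨(k - 2).toNat, by omega⟩
    exact moduleFinite_heckeAlgebra_of_eichlerMap N k m hm S (eichlerMap N k (m + 1))
      (fun f g hg => eichlerMap_hpoly m hm f g hg)
      (fun p hp hpN f => eichlerMap_heckeT m hm hp hpN f)
      (fun q hq hqN f => eichlerMap_heckeU m hm hq hqN f)
      (fun f h => eichlerMap_hsep m hm f h)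

end Fermat.Agent.S22
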