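-- Statement S23: `CuspForm.hasIntegralStructure_two`.
import Fermat.Statements.S23
import Fermat.Agent.S22
import Fermat.Agent.S23.Conj
import Fermat.Agent.S23.PrimElt
import Fermat.Agent.S23.AutC
import Fermat.Agent.S23.Rational
import Fermat.Agent.S23.Denominators

set_option autoImplicit false
open CuspForm

namespace Fermat.Agent.S23

open UpperHalfPlane Function CongruenceSubgroup
open scoped MatrixGroups ModularForm Manifold

/-- `S_k(Γ₀(N))` is stable under the coefficientwise action of `Aut(ℂ)` on `q`-expansions. -/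
theorem cuspForm_conj (N : ℕ) [NeZero N] (k : ℤ) (σ : ℂ ≃+* ℂ) (f : CuspForm (Gamma0 N) k) :
    ∃ f' : CuspForm (Gamma0 N) k, IsConj σ f f' := by
  obtain ⟨u, hint, hprim⟩ := exists_primitive N
  have h𝒢 : ((Gamma0 N : Subgroup SL(2, ℤ)) : Subgroup (GL (Fin 2) ℝ)) ≤ 𝒮ℒ := by
    rintro _ ⟨γ, _, rfl⟩
    exact ⟨γ, rfl⟩
  have h1 := CongruenceSubgroup.one_mem_strictPeriods_Gamma0 N
  have huσ : IsConj σ u u := by
    apply isConj_self_of_fixed
    intro n
    obtain ⟨m, hm⟩ := hint n
    rw [hm]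
    simp
  exact cuspForm_conj_of_primitive h𝒢 h1 u hprim σ huσ f

/-- `S_k(Γ₀(N))` is spanned by forms with rational `q`-expansion. -/
theorem span_rational (N : ℕ) [NeZero N] (k : ℤ) :
    Submodule.span ℂ {f : CuspForm (Gamma0 N) k |
      ∀ n, (qExpansion 1 f).coeff n ∈ Set.range ((↑) : ℚ → ℂ)} = ⊤ :=
  span_rational_of exists_ringEquiv_ne N k (cuspForm_conj N k)

theorem hasIntegralStructure_of_heckeFinite (N : ℕ) [NeZero N]
    (hfin : Module.Finite ℤ (CuspForm.heckeAlgebra N 2 ∅)) :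
    CuspForm.HasIntegralStructure N 2 := by
  unfold CuspForm.HasIntegralStructure
  rw [eq_top_iff, ← span_rational N 2]
  apply Submodule.span_le.mpr
  intro f hf
  obtain ⟨c, hc0, hc⟩ := bounded_denominators N hfin f hf
  have hcf : (c : ℂ) • f ∈ CuspForm.intLattice N 2 := by
    apply Submodule.subset_span
    intro n
    obtain ⟨m, hm⟩ := hc n
    refine ⟨m, ?_⟩
    rw [← hm]
    have h1 : (⇑((c : ℂ) • f) : ℍ → ℂ) = (c : ℂ) • ⇑f := rfl
    unfold ModularFormClass.qCoeff
    rw [h1, (isNice_cuspForm_Gamma0 f).qExpansion_smul]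
    simp
  have : f = (c : ℂ)⁻¹ • ((c : ℂ) • f) := by
    rw [smul_smul, inv_mul_cancel₀ (by exact_mod_cast hc0), one_smul]
  rw [this]
  exact Submodule.smul_mem _ _ (Submodule.subset_span hcf)

theorem result (N : ℕ) [NeZero N] : CuspForm.HasIntegralStructure N 2 :=
  hasIntegralStructure_of_heckeFinite N (Fermat.Agent.S22.result N 2 ∅)

end Fermat.Agent.S23
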