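import Fermat.Statements.S21
import Fermat.Agent.X0.RR7.Final

/-!
# S21: Eichler–Shimura for `Γ₀(N)`: the period pairing is injective with image the parabolic classes

PROGRAM X: X-S21 (injectivity, image inside the parabolic classes, `dim H¹_par ≤ 2 g`) together with
the lower bound `g ≤ dim_ℂ S₂(Γ₀(N))` from the Riemann–Roch core (X-RR, RR7).
-/

set_option autoImplicit false
open ModularCurve

namespace Fermat.Agent.S21

theorem result (N : ℕ) [NeZero N] :
    Function.Injective (ModularCurve.periodHomPair N)
      ∧ LinearMap.range (ModularCurve.periodHomPair N)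
          = ModularCurve.Period.parabolicHoms ℂ (CongruenceSubgroup.Gamma0 N) ℂ :=
  Fermat.Agent.X0.RR7.s21_of N (Fermat.Agent.X0.jBar_isSepVar N)
    (Fermat.Agent.X0.card_placesOver_1728 N) (Fermat.Agent.X0.card_placesOver_zero N)
    (Fermat.Agent.X0.card_placesOverInfty N) (Fermat.Agent.X0.RR7.rrCorePlaceForm N)

end Fermat.Agent.S21
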