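-- Statement S07: every weight-2 cusp form of level Γ₀(2) is zero.
-- Proof: the prelude Sturm bound for Γ₀(N), the elementary bound [SL(2,ℤ) : Γ₀(2)] ≤ 3,
-- and vanishing of the constant q-expansion coefficient of a cusp form.
import Fermat.Statements.S07
import Fermat.Prelude.Thm_ModularForm_sturm_bound_Gamma0
import Fermat.Prelude.Thm_CongruenceSubgroup_one_mem_strictPeriods_Gamma0

set_option autoImplicit false
open WeierstrassCurve WeierstrassCurve.Affine WeierstrassCurve.Affine.Point
open CuspForm ModularFormClass UpperHalfPlane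
open ModularForm

namespace Fermat.Agent.S07

/-- The matrix `[0, 1; -1, 0]` in `SL(2, ℤ)`. -/
def mA : Matrix.SpecialLinearGroup (Fin 2) ℤ := ⟨!![0, 1; -1, 0], by simp [Matrix.det_fin_two]⟩

/-- The matrix `[1, 0; 1, 1]` in `SL(2, ℤ)`. -/
def mB : Matrix.SpecialLinearGroup (Fin 2) ℤ := ⟨!![1, 0; 1, 1], by simp [Matrix.det_fin_two]⟩

theorem coe_mA : (mA : Matrix (Fin 2) (Fin 2) ℤ) = !![0, 1; -1, 0] := rfl

theorem coe_mB : (mB : Matrix (Fin 2) (Fin 2) ℤ) = !![1, 0; 1, 1] := rfl

/-- Inverses of coset representatives for `Γ₀(2)` in `SL(2, ℤ)`. -/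
def cosetRepInv : Fin 3 → Matrix.SpecialLinearGroup (Fin 2) ℤ
  | 0 => 1
  | 1 => mA
  | 2 => mB

/-- The index of `Γ₀(2)` in `SL(2, ℤ)` is at most `3`. -/
theorem index_Gamma0_two_le : (CongruenceSubgroup.Gamma0 2).index ≤ 3 := by
  classical
  have hsurj : Function.Surjective
      (fun i : Fin 3 => (QuotientGroup.mk (cosetRepInv i)⁻¹ :
        Matrix.SpecialLinearGroup (Fin 2) ℤ ⧸ CongruenceSubgroup.Gamma0 2)) := by
    intro q
    induction q using QuotientGroup.induction_on with
    | H g =>
      by_cases hc : ((g 1 0 : ℤ) : ZMod 2) = 0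
      · refine ⟨0, ?_⟩
        show (QuotientGroup.mk (cosetRepInv 0)⁻¹ : _ ⧸ CongruenceSubgroup.Gamma0 2)
          = QuotientGroup.mk g
        rw [QuotientGroup.eq, inv_inv]
        simpa [cosetRepInv] using hc
      · by_cases ha : ((g 0 0 : ℤ) : ZMod 2) = 0
        · refine ⟨1, ?_⟩
          show (QuotientGroup.mk (cosetRepInv 1)⁻¹ : _ ⧸ CongruenceSubgroup.Gamma0 2)
            = QuotientGroup.mk g
          rw [QuotientGroup.eq, inv_inv, CongruenceSubgroup.Gamma0_mem]
          simp [cosetRepInv, Matrix.SpecialLinearGroup.coe_mul, coe_mA, Matrix.mul_apply,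
            Fin.sum_univ_two, ha]
        · refine ⟨2, ?_⟩
          show (QuotientGroup.mk (cosetRepInv 2)⁻¹ : _ ⧸ CongruenceSubgroup.Gamma0 2)
            = QuotientGroup.mk g
          rw [QuotientGroup.eq, inv_inv, CongruenceSubgroup.Gamma0_mem]
          have h1 : ∀ x : ZMod 2, x ≠ 0 → x = 1 := by decide
          simp [cosetRepInv, Matrix.SpecialLinearGroup.coe_mul, coe_mB, Matrix.mul_apply,
            Fin.sum_univ_two, h1 _ ha, h1 _ hc]
          decide
  have := Nat.card_le_card_of_surjective _ hsurj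
  simpa [Subgroup.index] using this

theorem result (f : CuspForm (CongruenceSubgroup.Gamma0 2) 2) : f = 0 := by
  have hF : (CuspForm.toModularFormₗ f : ModularForm (CongruenceSubgroup.Gamma0 2) 2) = 0 := by
    apply ModularForm.sturm_bound_Gamma0 2
    intro n hn
    have hidx := index_Gamma0_two_le
    have h0 : ((2 : ℤ) * ((CongruenceSubgroup.Gamma0 2).index : ℤ)).toNat / 12 = 0 := by
      omega
    rw [h0] at hn
    obtain rfl : n = 0 := by omega
    exact CuspFormClass.qExpansion_coeff_zero f one_pos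
      (CongruenceSubgroup.one_mem_strictPeriods_Gamma0 2)
  exact CuspForm.toModularFormₗ_injective (by simpa using hF)

end Fermat.Agent.S07
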