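import Fermat.Statements.S20
import Fermat.Agent.X0.RR7.Final

/-!
# S20: `dim_ℂ S₂(Γ₀(N)) = genusFormula N`

PROGRAM X: upper bound from Eichler–Shimura / parabolic cohomology (X-S21), lower bound from the
Riemann–Roch core for the function field `Fb N` of `X₀(N)` over `ℚ̄` (X-RR) transported to cusp
forms by `h ↦ Ψ(h) · j'` (RR7), with the place counts of `j` from X-MOD / X-COUNT.
-/

set_option autoImplicit false
open CuspForm

namespace Fermat.Agent.S20

theorem result (N : ℕ) [NeZero N] :
    (Module.finrank ℂ (CuspForm (CongruenceSubgroup.Gamma0 N) 2) : ℚ) = ModularCurve.genusFormula N :=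
  Fermat.Agent.X0.RR7.s20_of N (Fermat.Agent.X0.jBar_isSepVar N)
    (Fermat.Agent.X0.card_placesOver_1728 N) (Fermat.Agent.X0.card_placesOver_zero N)
    (Fermat.Agent.X0.card_placesOverInfty N) (Fermat.Agent.X0.RR7.rrCorePlaceForm N)

end Fermat.Agent.S20
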