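import Fermat.Statements.S19
import Fermat.Agent.FF2.G0b.FiniteTorsion
import Fermat.Agent.FF2.GInst.Inst
import Fermat.Agent.FF2.G2I.GeoFinal

set_option autoImplicit false
open ModularCurve
open ModularCurve

namespace Fermat.Agent.S19

theorem result
    (p : ℕ) [NeZero p] (ℓ : ℕ) [Fact ℓ.Prime] (hℓp : ¬ ℓ ∣ p) (k : ℕ) :
    ∃ (H : Type) (_ : CommRing H) (_ : HopfAlgebra (GaloisRep.ratLocalizedAt ℓ) H),
      Module.Finite (GaloisRep.ratLocalizedAt ℓ) H ∧ Module.Flat (GaloisRep.ratLocalizedAt ℓ) H ∧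
      Coalgebra.IsCocomm (GaloisRep.ratLocalizedAt ℓ) H ∧
      ∃ e : WithConv (H →ₐ[GaloisRep.ratLocalizedAt ℓ] AlgebraicClosure ℚ) ≃
          ↥(Submodule.torsionBy ℤ (JZero p) ((ℓ : ℤ) ^ k)),
        (∀ f g, e (f * g) = e f + e g) ∧
        ∀ (σ : AlgebraicClosure ℚ ≃ₐ[ℚ] AlgebraicClosure ℚ)
          (f g : WithConv (H →ₐ[GaloisRep.ratLocalizedAt ℓ] AlgebraicClosure ℚ)),
          (∀ h : H, g h = σ (f h)) → ((e g : JZero p)) = σ • (e f : JZero p) := by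
  have := Fermat.Agent.FF2.G0b.finite_torsionBy_JZero_pow p ℓ k
  exact Fermat.Agent.FF2.GInst.S19_of_geoContract p ℓ hℓp k
    (Fermat.Agent.FF2.G2I.geoContract p ℓ hℓp)

end Fermat.Agent.S19
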