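-- Statement S29: residual Galois representation attached to a normalised weight-2 eigenform on Gamma_0(N).
-- PROGRAM R (Res.s29_of_s37_of_support) + S37 (Eichler-Shimura congruence relation) + PROGRAM J
-- (Jac.KMF.eigenformSupportAt: the eigenform support property of J_0(N), via the Kummer maps (K)).
import Fermat.Statements.S29
import Fermat.Agent.S37
import Fermat.Agent.Res.S29Final
import Fermat.Agent.Jac.KummerMapsFinal

set_option autoImplicit false
open CuspForm CuspForm.IsNormalizedEigenform

namespace Fermat.Agent.S29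

theorem result
    {N : ℕ} {g : CuspForm (CongruenceSubgroup.Gamma0 N) 2} (hg : g.IsNormalizedEigenform)
    {p : ℕ} (hp : p.Prime) {k : Type} [Field k] [CharP k p]
    (φ : integralClosure ℤ ℂ →+* k) :
    ∃ ρ : ResidualGaloisRep k, ρ.IsAttachedTo g φ ∧
      ∀ ℓ : ℕ, ℓ.Prime → ¬ ℓ ∣ N * p → ρ.IsUnramifiedAt ℓ :=
  Fermat.Agent.Res.s29_of_s37_of_support
    (fun N p _ hcomm => Fermat.Agent.S37.result N p hcomm)
    (fun N p _ _ => Fermat.Agent.Jac.KMF.eigenformSupportAt N p) hg hp φ

end Fermat.Agent.S29
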