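-- Statement S02: a counterexample to Fermat for a prime exponent at least five gives a Frey package.
import Fermat.Statements.S02

set_option autoImplicit false
open FreyPackage

namespace Fermat.Agent.S02

/-- Final step: coprime, `a` odd, `b` even. -/
lemma of_coprime_odd_even {a b c : ℤ} (ha : a ≠ 0) (hb : b ≠ 0) (hc : c ≠ 0)
    (hab : gcd a b = 1) (p : ℕ) (pp : p.Prime) (hp5 : 5 ≤ p) (H : a ^ p + b ^ p = c ^ p)
    (hao : Odd a) (hbe : Even b) : Nonempty FreyPackage := by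
  have hpodd : Odd p := pp.odd_of_ne_two (by omega)
  have hb2 : ((b : ℤ) : ZMod 2) = 0 := by
    rw [ZMod.intCast_zmod_eq_zero_iff_dvd]
    exact even_iff_two_dvd.mp hbe
  have hnb2 : (((-b : ℤ)) : ZMod 2) = 0 := by
    rw [ZMod.intCast_zmod_eq_zero_iff_dvd]
    exact (dvd_neg).mpr (even_iff_two_dvd.mp hbe)
  -- a mod 4 is 1 or 3
  have h4 : a % 4 = 1 ∨ a % 4 = 3 := by
    have := Int.odd_iff.mp hao
    omega
  rcases h4 with h1 | h3
  · -- negate everything
    refine ⟨⟨-a, -b, -c, neg_ne_zero.mpr ha, neg_ne_zero.mpr hb, neg_ne_zero.mpr hc, p, pp, hp5,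
      ?_, ?_, ?_, hnb2⟩⟩
    · rw [hpodd.neg_pow, hpodd.neg_pow, hpodd.neg_pow, ← H]; ring
    · rw [gcd_neg, neg_gcd]; exact hab
    · have : ((-a : ℤ) : ZMod 4) = ((3 : ℤ) : ZMod 4) := by
        rw [ZMod.intCast_eq_intCast_iff_dvd_sub]
        have : (4 : ℤ) ∣ 3 - -a := by omega
        exact_mod_cast this
      rw [this]; norm_cast
  · refine ⟨⟨a, b, c, ha, hb, hc, p, pp, hp5, H, hab, ?_, hb2⟩⟩
    have : ((a : ℤ) : ZMod 4) = ((3 : ℤ) : ZMod 4) := by
      rw [ZMod.intCast_eq_intCast_iff_dvd_sub]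
      have : (4 : ℤ) ∣ 3 - a := by omega
      exact_mod_cast this
    rw [this]; norm_cast

/-- Coprime case. -/
lemma of_coprime {a b c : ℤ} (ha : a ≠ 0) (hb : b ≠ 0) (hc : c ≠ 0)
    (hab : gcd a b = 1) (p : ℕ) (pp : p.Prime) (hp5 : 5 ≤ p) (H : a ^ p + b ^ p = c ^ p) :
    Nonempty FreyPackage := by
  have hpodd : Odd p := pp.odd_of_ne_two (by omega)
  have hp0 : 0 < p := by omega
  have hac : gcd a c = 1 := by rw [← gcdab_eq_gcdac hp0 H, hab]
  have hbc : gcd b c = 1 := by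
    rw [← gcdab_eq_gcdac hp0 (a := b) (b := a) (c := c) (by rw [add_comm]; exact H), gcd_comm, hab]
  rcases Int.even_or_odd a with hae | hao
  · -- a even, so b odd (coprime); swap
    have hbo : Odd b := by
      by_contra hbo
      rw [Int.not_odd_iff_even] at hbo
      have h2 : (2 : ℤ) ∣ gcd a b := dvd_gcd (even_iff_two_dvd.mp hae) (even_iff_two_dvd.mp hbo)
      rw [hab] at h2
      norm_num at h2
    exact of_coprime_odd_even hb ha hc (by rw [gcd_comm]; exact hab) p pp hp5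
      (by rw [add_comm]; exact H) hbo hae
  · rcases Int.even_or_odd b with hbe | hbo
    · exact of_coprime_odd_even ha hb hc hab p pp hp5 H hao hbe
    · -- both odd: c is even; use a^p + (-c)^p = (-b)^p
      have hce : Even c := by
        have h1 : Odd (a ^ p) := hao.pow
        have h2 : Odd (b ^ p) := hbo.pow
        have h3 : Even (c ^ p) := by rw [← H]; exact h1.add_odd h2
        exact (Int.even_pow.mp h3).1
      refine of_coprime_odd_even (a := a) (b := -c) (c := -b) ha (neg_ne_zero.mpr hc)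
        (neg_ne_zero.mpr hb) (by rw [gcd_neg]; exact hac) p pp hp5 ?_ hao hce.neg
      rw [hpodd.neg_pow, hpodd.neg_pow, ← H]; ring

theorem result (a b c : ℤ) (ha : a ≠ 0) (hb : b ≠ 0) (hc : c ≠ 0) (p : ℕ) (pp : p.Prime) (hp5 : 5 ≤ p) (H : a ^ p + b ^ p = c ^ p) : Nonempty FreyPackage := by
  have hp0 : p ≠ 0 := by omega
  -- divide out by the gcd
  obtain ⟨a', b', hcop, ha', hb'⟩ :
      ∃ a' b' : ℤ, gcd a' b' = 1 ∧ a = gcd a b * a' ∧ b = gcd a b * b' := by
    have hg0 : gcd a b ≠ 0 := by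
      intro h
      exact ha ((gcd_eq_zero_iff a b).mp h).1
    obtain ⟨a', b', h1, h2, hu⟩ := extract_gcd a b
    refine ⟨a', b', ?_, h1, h2⟩
    rcases Int.isUnit_iff.mp hu with h | h
    · exact h
    · exfalso
      have : (0 : ℤ) ≤ gcd a' b' := by
        change (0 : ℤ) ≤ (Int.gcd a' b' : ℤ)
        positivity
      omega
  set d : ℤ := gcd a b with hd
  have hd0 : d ≠ 0 := by
    intro h
    exact ha ((gcd_eq_zero_iff a b).mp h).1
  have hdc : d ∣ c := by
    rw [← Int.pow_dvd_pow_iff hp0, ← H]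
    exact dvd_add (pow_dvd_pow_of_dvd (gcd_dvd_left a b) p) (pow_dvd_pow_of_dvd (gcd_dvd_right a b) p)
  obtain ⟨c', hc'⟩ := hdc
  have ha'0 : a' ≠ 0 := by rintro rfl; exact ha (by rw [ha']; ring)
  have hb'0 : b' ≠ 0 := by rintro rfl; exact hb (by rw [hb']; ring)
  have hc'0 : c' ≠ 0 := by rintro rfl; exact hc (by rw [hc']; ring)
  have H' : a' ^ p + b' ^ p = c' ^ p := by
    have hdp : d ^ p ≠ 0 := pow_ne_zero p hd0
    apply mul_left_cancel₀ hdp
    have : d ^ p * (a' ^ p + b' ^ p) = (d * a') ^ p + (d * b') ^ p := by ring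
    rw [this, ← ha', ← hb', H, hc']; ring
  exact of_coprime ha'0 hb'0 hc'0 hcop p pp hp5 H'

end Fermat.Agent.S02
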