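-- Statement S05 (row 5): the mod-p Galois representation of the Frey curve is unramified at every
-- prime q with q ≠ 2 and q ≠ p.  Proof: elementary valuation-theoretic analysis of the Frey curve
-- (good reduction / nodal reduction via explicit addition formulas), see Fermat/Agent/S05/*.lean.
import Fermat.Statements.S05
import Fermat.Agent.S05.FreyMain

set_option autoImplicit false
open WeierstrassCurve WeierstrassCurve.Affine WeierstrassCurve.Affine.Point
open CuspForm ModularFormClass UpperHalfPlane
open FreyPackage

namespace Fermat.Agent.S05

theorem result (P : FreyPackage) {q : ℕ} (hq : q.Prime) (hq2 : q ≠ 2) (hqp : q ≠ P.p) : P.GaloisRepUnramifiedAt q := by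
  intro A hA σ hσ x
  exact frey_smul_eq_self P hq hq2 hqp A hA hσ x

end Fermat.Agent.S05
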