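-- Statement S08: every weight-2 cusp form of level Γ₀(1) is zero.
-- Proof: the prelude Sturm bound for Γ₀(N) with N = 1 (where Γ₀(1) is all of SL(2,ℤ)),
-- and vanishing of the constant q-expansion coefficient of a cusp form.
import Fermat.Statements.S08
import Fermat.Prelude.Thm_ModularForm_sturm_bound_Gamma0
import Fermat.Prelude.Thm_CongruenceSubgroup_one_mem_strictPeriods_Gamma0

set_option autoImplicit false
open WeierstrassCurve WeierstrassCurve.Affine WeierstrassCurve.Affine.Point
open CuspForm ModularFormClass UpperHalfPlane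
open ModularForm

namespace Fermat.Agent.S08

/-- `Γ₀(1)` is all of `SL(2, ℤ)`. -/
theorem Gamma0_one_eq_top : CongruenceSubgroup.Gamma0 1 = ⊤ := by
  ext g
  simp [CongruenceSubgroup.Gamma0_mem, eq_iff_true_of_subsingleton]

/-- The index of `Γ₀(1)` in `SL(2, ℤ)` is `1`. -/
theorem index_Gamma0_one : (CongruenceSubgroup.Gamma0 1).index = 1 := by
  rw [Gamma0_one_eq_top, Subgroup.index_top]

theorem result (f : CuspForm (CongruenceSubgroup.Gamma0 1) 2) : f = 0 := by
  have hF : (CuspForm.toModularFormₗ f : ModularForm (CongruenceSubgroup.Gamma0 1) 2) = 0 := by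
    apply ModularForm.sturm_bound_Gamma0 1
    intro n hn
    have hidx := index_Gamma0_one
    have h0 : ((2 : ℤ) * ((CongruenceSubgroup.Gamma0 1).index : ℤ)).toNat / 12 = 0 := by
      omega
    rw [h0] at hn
    obtain rfl : n = 0 := by omega
    exact CuspFormClass.qExpansion_coeff_zero f one_pos
      (CongruenceSubgroup.one_mem_strictPeriods_Gamma0 1)
  exact CuspForm.toModularFormₗ_injective (by simpa using hF)

end Fermat.Agent.S08
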