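-- Statement S13 (row 12): if the mod-p Galois representation of the Frey curve is reducible then
-- E[p] has a Galois-stable cofixed line.  Proof: elementary (no S14, no Weil pairing, no Tate
-- curve): division polynomials (block D), node machinery of S05 at 2 and p (blocks L2, Lp),
-- Minkowski (block G); top-level assembly in Fermat/Agent/S13/Assembly.lean.
import Fermat.Statements.S13
import Fermat.Agent.S13.AssemblyS05
import Fermat.Agent.S13.GOutProof
import Fermat.Agent.S13.DFinal
import Fermat.Agent.S13.L2Glue
import Fermat.Agent.S13.LpOutFinal

set_option autoImplicit false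
open WeierstrassCurve WeierstrassCurve.Affine WeierstrassCurve.Affine.Point
open CuspForm ModularFormClass UpperHalfPlane
open FreyPackage

namespace Fermat.Agent.S13

theorem result (P : FreyPackage) (hred : ¬ GaloisRepIsIrreducible (K := AlgebraicClosure ℚ) ℚ P.freyCurve P.p) : HasGaloisStableCofixedLine (K := AlgebraicClosure ℚ) ℚ P.freyCurve P.p :=
  s13_of_blocks P (dOut P) gOut (l2Out P (dOut P)) (lpOut P (dOut P) (daOut P)) hred

end Fermat.Agent.S13
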