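-- Statement S14: `ExtCitation.ExtVanishingCts p` for `p ≥ 3`.
import Fermat.Statements.S14
import Fermat.Agent.S14.ResultOf
import Fermat.Agent.S14.Recip

set_option autoImplicit false
open ExtCitation

namespace Fermat.Agent.S14

theorem result {p : ℕ} [Fact p.Prime] (h3 : 3 ≤ p) :
    ExtCitation.ExtVanishingCts p :=
  extVanishingCts_of_recip h3 fun L _ _ _ K _ _ hp2 hdeg hunr hact β hβ =>
    artin_span_singleton_eq_one p L K hp2 hdeg hunr hact β hβ

end Fermat.Agent.S14
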