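-- Statement S16 (row 15): for every prime p, the index of the image of the Eisenstein ideal in the
-- integral Hecke algebra of weight 2 and level p equals (p-1)/gcd(p-1,12).
-- The statement below is byte-identical to the frozen statement ModularCurve.FermatFrozen.S16
-- (Fermat/Statements/S16.lean).
--
-- PROGRAM E.  Proof: `T/I` is cyclic (`Eis/CyclicQuot`); a ring hom `T/I → ℤ/M` yields a cusp form
-- congruent to the Eisenstein series mod `M` (duality, `Eis/N0*`); such a congruence forces
-- `M ∣ n` (upper bound `Eis.Upper p`: bridge to forms `≡ 1 mod l^e` + the nodes N3 (`l ≥ 5`,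
-- level-one forms mod `l`), N4 (`l = 3`), N5/N6 (`l = 2`) on top of the conjugates package N1);
-- `T/I` surjects onto `ℤ/n` (lower bound `Eis.LowerBound.lowerHom`: Shimura character, `PSL₂(ℤ) =
-- C₂ * C₃`, Shapiro, parabolic lifting, `lamPsi`); genus-zero levels `p ∈ {2,3,5,7,13}` directly
-- (`Eis/SmallLevel`).
import Fermat.Statements.S16
import Fermat.Agent.Eis.S16Of
import Fermat.Agent.Eis.LowerBound
import Fermat.Agent.Eis.UpperAssembly
import Fermat.Agent.Eis.TwoEasyFinal
import Fermat.Agent.Eis.TwoHard
import Fermat.Agent.Eis.Three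
import Fermat.Agent.Eis.UpperNe

set_option autoImplicit false
open ModularCurve CuspForm
open ModularCurve

namespace Fermat.Agent.S16

theorem result
    (p : ℕ) [Fact p.Prime] :
    Nat.card (↥(heckeLatticeAlgebra p ∅) ⧸
        Ideal.map ((latticeRestrictHom p ∅).toRingHom.comp (heckeEvalForms p 2))
          (eisensteinIdeal p)) =
      eisensteinNumerator p := by
  refine Fermat.Agent.Eis.S16Of.s16_of_large p (fun hs => ?_)
    (fun _ => Fermat.Agent.Eis.LowerBound.lowerHom p)
  have hp : p.Prime := Fact.out
  have h11 : 11 ≤ p := Fermat.Agent.Eis.S16Of.eleven_le_of_not_small hp hs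
  have h5 : 5 ≤ p := by omega
  exact Fermat.Agent.Eis.Bridge.upper_of_nodes p h5
    (fun l _ hl => Fermat.Agent.Eis.UpperNe.not_unitCong_ge_five p l h5 hl)
    (fun h => Fermat.Agent.Eis.Three.not_unitCong_three_one p h)
    (fun h => Fermat.Agent.Eis.Three.not_unitCong_three_two p h)
    (fun h => Fermat.Agent.Eis.TwoEasy.not_unitCong_two_two hp h)
    (fun h => Fermat.Agent.Eis.TwoEasy.not_unitCong_two_three_of_three_mod_eight hp h)
    (fun h => Fermat.Agent.Eis.TwoHard.not_unitCong_two_three p h)

end Fermat.Agent.S16
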