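-- Statement S24: genus of the function field of X₀(N) over ℚ̄ = genusFormula N.
-- Assembly of PROGRAM X: X-ALG (Riemann-Hurwitz for `jBar N`), X-COUNT (orbit counts),
-- X-MOD (degree and ramification of `jBar N`).
import Fermat.Statements.S24
import Fermat.Agent.X0.Assembly
import Fermat.Agent.X0.ModDegOf
import Fermat.Agent.X0.DegUpper
import Fermat.Agent.X0.ModFinalHyp
import Fermat.Agent.X0.ValPtDist

set_option autoImplicit false
open ModularCurve

namespace Fermat.Agent.S24

theorem result (N : ℕ) [NeZero N]
    [AlgebraicCurve.HasCanonicalDivisor (K := AlgebraicClosure ℚ) (F := ↥(ModularCurve.modularFunctionFieldBar N))] :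
    (AlgebraicCurve.genus (AlgebraicClosure ℚ) ↥(ModularCurve.modularFunctionFieldBar N) : ℚ)
      = ModularCurve.genusFormula N := by
  have hsep := Fermat.Agent.X0.jBar_isSepVar_of N (Fermat.Agent.X0.exists_bounded_relation N)
  have hdist := Fermat.Agent.X0.thetaC_injective_cosets N
  exact Fermat.Agent.X0.genus_eq_genusFormula_of N hsep
    (fun v a h0 h1 => Fermat.Agent.X0.ord_jBar_sub_le_one_of N hsep hdist v a h0 h1)
    (Fermat.Agent.X0.card_placesOver_1728_of N hsep hdist)
    (Fermat.Agent.X0.card_placesOver_zero_of N hsep hdist)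
    (Fermat.Agent.X0.card_placesOverInfty_of_dist N hsep hdist)

end Fermat.Agent.S24
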