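-- Statement S35: the λ-adic representation of a weight-2 newform; Frobenius at the primes q ∥ M.
-- PHASE 2 (BR2/*): s35_of_hgeo (Program T pseudo-character + the trace identity t(σ)² = (q+1)² from the
-- Frobenius-square filtration) + exists_geoInputSpan (auxiliary level) + (E7) E7PlugFinal (Kummer maps with
-- degeneracy intertwinings, new quotient, strong multiplicity one) + (GEO) GeoLevel (G3, G4, G5 on the
-- semistable model of X₀(M₁q) of Program B / S34: AnnulusInstFinal.modularData_final).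
import Fermat.Statements.S35
import Fermat.Agent.BR2.S35Reduce
import Fermat.Agent.BR2.S35Final
import Fermat.Agent.BR2.E7PlugFinal
import Fermat.Agent.BR2.GeoLevel
import Fermat.Agent.BR2.StrongMultOne
import Fermat.Agent.BR.Inst.AnnulusInstFinal

set_option autoImplicit false
set_option autoImplicit false
open Polynomial
open CuspForm CuspForm.IsNewform

namespace Fermat.Agent.S35

theorem result
    {M : ℕ} [NeZero M] {g : CuspForm (CongruenceSubgroup.Gamma0 M) 2} (hg : g.IsNewform)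
    (lam : ℕ) [Fact lam.Prime]
    (S : Finset ℕ)
    (O' : Type) [CommRing O'] [IsDomain O'] [IsDiscreteValuationRing O']
    [IsAdicComplete (IsLocalRing.maximalIdeal O') O'] [Finite (IsLocalRing.ResidueField O')]
    [CharZero O'] (hlamO' : (lam : O') ∈ IsLocalRing.maximalIdeal O')
    (chig : CuspForm.heckeAlgebra M 2 (↑S : Set ℕ) →+* ℂ)
    (hchig : ∀ (ℓ : ℕ) (hℓ : ℓ.Prime) (hℓM : ¬ ℓ ∣ M) (hℓS : ℓ ∉ (↑S : Set ℕ)),
      chig (CuspForm.heckeAlgebra.T hℓ hℓM hℓS) = ModularFormClass.qCoeff g ℓ)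
    (iota : chig.range →+* O')
    (hlamS : lam ∈ S) (hMS : ∀ q : ℕ, q.Prime → q ∣ M → q ∈ S)
    :
    ∃ (O'' : Type) (_ : CommRing O'') (_ : IsDomain O'') (_ : IsDiscreteValuationRing O'')
      (_ : IsAdicComplete (IsLocalRing.maximalIdeal O'') O'') (_ : Finite (IsLocalRing.ResidueField O''))
      (_ : CharZero O'') (_ : Algebra O' O'') (_ : Module.Finite O' O'') (_ : IsLocalHom (algebraMap O' O'')),
      Function.Injective (algebraMap O' O'') ∧
      ∃ ρ : GaloisRepAdic O'',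
        (∀ (ℓ : ℕ) (hℓ : ℓ.Prime) (hℓM : ¬ ℓ ∣ M) (hℓS : ℓ ∉ (↑S : Set ℕ)),
          ∀ A : ValuationSubring (AlgebraicClosure ℚ), A.LiesOverPrime ℓ →
            ∀ σ : AlgebraicClosure ℚ ≃ₐ[ℚ] AlgebraicClosure ℚ, A.IsFrobeniusAt σ ℓ →
              LinearMap.charpoly (ρ.ρ σ) =
                X ^ 2 - C (algebraMap O' O'' ((iota.comp chig.rangeRestrict) (CuspForm.heckeAlgebra.T hℓ hℓM hℓS))) * X
                  + C ((ℓ : O''))) ∧
        (∀ q : ℕ, q.Prime → q ≠ lam → q ∣ M → ¬ q ^ 2 ∣ M →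
          ∀ A : ValuationSubring (AlgebraicClosure ℚ), A.LiesOverPrime q →
            ∀ σ : AlgebraicClosure ℚ ≃ₐ[ℚ] AlgebraicClosure ℚ, A.IsFrobeniusAt σ q →
              LinearMap.charpoly (ρ.ρ σ) = X ^ 2 - C ((q : O'') + 1) * X + C ((q : O'')) ∨
              LinearMap.charpoly (ρ.ρ σ) = X ^ 2 + C ((q : O'') + 1) * X + C ((q : O''))) := by
  refine Fermat.Agent.BR2.s35_of_hgeo lam S O' hlamO' hlamS hMS (iota.comp chig.rangeRestrict) ?_
  intro q hq hqlam hqM hq2 B hB σ hσ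
  obtain ⟨M0, rfl⟩ : ∃ M0, M = M0 * q := ⟨M / q, (Nat.div_mul_cancel hqM).symm⟩
  have hM0 : M0 ≠ 0 := fun h => NeZero.ne (M0 * q) (by rw [h, zero_mul])
  haveI : NeZero M0 := ⟨hM0⟩
  haveI : NeZero q := ⟨hq.ne_zero⟩
  have hqM0 : ¬ q ∣ M0 := fun h => hq2 (by rw [pow_two]; exact mul_dvd_mul_right h q)
  have hne : M0 ≠ M0 * q := fun h => by
    have h1 : M0 * 1 = M0 * q := by rw [mul_one]; exact h
    exact hq.one_lt.ne (Nat.eq_of_mul_eq_mul_left (Nat.pos_of_ne_zero hM0) h1)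
  exact Fermat.Agent.BR2.S35Final.exists_geoInputSpan M0 q lam S _ σ
    (Fact.out : lam.Prime).ne_zero hq hqM0 hMS
    (fun S' hSS' =>
      Fermat.Agent.BR2.E7PlugFinal.e7OutProp_of_hN5 M0 q hq hqM0 S S' hSS' hMS chig hchig iota
        (Fermat.Agent.BR2.StrongMultOne.not_exists_eigenform_of_isNewform hg
          (dvd_mul_right M0 q) hne S'))
    (fun ℓ' _ _ _ hqM' h2 h3 =>
      Fermat.Agent.BR2.GeoLevel.geoLevel (M0 * ℓ') q lam hq hqM' h2 h3 Fact.out hqlam B hB hσ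
        (fun _ _ _ _ hqM'' _ _ B' hB' _ =>
          ⟨Fermat.Agent.BR.Inst.AnnulusInstFinal.modularData_final B' hB' hqM''⟩))

end Fermat.Agent.S35
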