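-- Statement S41 (row 39): level raising (Ribet / Diamond-Taylor) for weight 2 eigenforms on Gamma0(N):
-- a normalised eigenform f congruent mod a prime above p to an elliptic curve with irreducible mod p
-- representation, satisfying a_q(f)^2 = (q+1)^2 mod the prime at a prime q not dividing N p, is congruent
-- to a normalised eigenform g of level N q that is new at q.
-- The statement below is byte-identical to the frozen statement WeierstrassCurve.FermatFrozen.S41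
-- (Fermat/Statements/S41.lean).
--
-- PROGRAM M.  Proof (all under Fermat/Agent/LR/): parabolic cohomology lattices Lam N, Lam (N q) with
-- commuting Hecke operators (J: `TLamComm`), an eigenclass for f mod p (Y: `EigenClass`), the two
-- degeneracy maps and their adjoints with the 2x2 intersection matrix (B: `DegMain`), perfect pairings
-- (C: `PDNodeC.node_C`), Ihara's lemma from the congruence kernel of SL2(Z[1/q]) via Mennicke symbols
-- and Hecke-invariance (I: `IharaInvFinal.hIhara_all`), the non-Eisenstein prime (E: `NonEisFinal`,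
-- Chebotarev + irreducibility), the q-new quotient and Deligne-Serre lifting (F: `S41Of`), and the
-- abstract level-raising argument tying them together (A/F-TOP: `AbstractGen`, `S41Main.s41_of_nodes`).
import Fermat.Statements.S41
import Fermat.Agent.LR.S41Main
import Fermat.Agent.LR.S41Of
import Fermat.Agent.LR.TLamComm
import Fermat.Agent.LR.EigenClass
import Fermat.Agent.LR.NonEisFinal
import Fermat.Agent.LR.DegMain
import Fermat.Agent.LR.DegAdjoint
import Fermat.Agent.LR.PDNodeC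
import Fermat.Agent.LR.IharaInvFinal

set_option autoImplicit false
open WeierstrassCurve WeierstrassCurve.Affine WeierstrassCurve.Affine.Point
open scoped CongruenceSubgroup
open WeierstrassCurve

namespace Fermat.Agent.S41

theorem result
    (E : WeierstrassCurve ℚ) [E.IsElliptic] {W : WeierstrassCurve ℤ} (hW : W.IsIntegralModelOf E)
    {p N q' : ℕ} (hp : p.Prime) (hp2 : p ≠ 2) (hN : 0 < N) (hq' : q'.Prime) (hq'N : ¬ q' ∣ N) (hq'p : q' ≠ p)
    (hirr : GaloisRepIsIrreducible (K := AlgebraicClosure ℚ) ℚ E p)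
    (f : CuspForm (CongruenceSubgroup.Gamma0 N) 2) (𝔪 : Ideal (integralClosure ℤ ℂ))
    (hf : f.IsNormalizedEigenform) (hmax : 𝔪.IsMaximal) (hpm : (p : integralClosure ℤ ℂ) ∈ 𝔪)
    (hcong : ∀ ℓ : ℕ, ℓ.Prime → W.IsGoodPrimeFor ℓ → ¬ ℓ ∣ N → ℓ ≠ p →
      ∃ a : integralClosure ℤ ℂ, (a : ℂ) = ModularFormClass.qCoeff f ℓ ∧
        a - ((W.apOfModel ℓ : ℤ) : integralClosure ℤ ℂ) ∈ 𝔪)
    (hLR : ∃ a : integralClosure ℤ ℂ, (a : ℂ) = ModularFormClass.qCoeff f q' ∧
      a ^ 2 - ((q' : integralClosure ℤ ℂ) + 1) ^ 2 ∈ 𝔪) :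
    ∃ (g : CuspForm (CongruenceSubgroup.Gamma0 (N * q')) 2) (𝔪' : Ideal (integralClosure ℤ ℂ)),
      g.IsNormalizedEigenform ∧ 𝔪'.IsMaximal ∧ (p : integralClosure ℤ ℂ) ∈ 𝔪' ∧
      (∀ ℓ : ℕ, ℓ.Prime → W.IsGoodPrimeFor ℓ → ¬ ℓ ∣ N * q' → ℓ ≠ p →
        ∃ a : integralClosure ℤ ℂ, (a : ℂ) = ModularFormClass.qCoeff g ℓ ∧
          a - ((W.apOfModel ℓ : ℤ) : integralClosure ℤ ℂ) ∈ 𝔪') ∧
      g.IsNewAt q' := by
  have : NeZero N := ⟨hN.ne'⟩
  have : NeZero (N * q') := ⟨(Nat.mul_pos hN hq'.pos).ne'⟩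
  have : Fact p.Prime := ⟨hp⟩
  obtain ⟨IN, INq, hIN, hINq, hadj1, hadj2, hselfN⟩ := Fermat.Agent.LR.PDNodeC.node_C N q' hq' hq'N
  exact Fermat.Agent.LR.S41Main.s41_of_nodes hp hq' f 𝔪 hmax hcong hLR
    (Fermat.Agent.LR.TLamComm.TLam_commute N) (Fermat.Agent.LR.TLamComm.TLam_commute (N * q'))
    (fun S c hc => Fermat.Agent.LR.EigenClass.exists_eigenclass
      (Fermat.Agent.LR.TLamComm.TLam_commute N) hp f hf 𝔪 hmax hpm S c hc)
    (Fermat.Agent.LR.DegMain.A1L N q') (Fermat.Agent.LR.DegMain.A2L N q' hq' hq'N)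
    (Fermat.Agent.LR.DegMain.B1L N q' hq' hq'N) (Fermat.Agent.LR.DegMain.B2L N q' hq' hq'N)
    (Fermat.Agent.LR.DegMain.B1L_A1L N q' hq' hq'N) (Fermat.Agent.LR.DegMain.B2L_A2L N q' hq' hq'N)
    (Fermat.Agent.LR.DegMain.B1L_A2L N q' hq' hq'N) (Fermat.Agent.LR.DegMain.B2L_A1L N q' hq' hq'N)
    (fun l hl x => Fermat.Agent.LR.DegMain.A1L_TLam N q' hq' hq'N l
      (fun h => hl (h ▸ Dvd.intro_left N rfl)) x)
    (fun l hl x => Fermat.Agent.LR.DegMain.A2L_TLam N q' hq' hq'N l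
      (fun h => hl (h ▸ Dvd.intro_left N rfl)) x)
    (fun l => (l : ℕ) ≠ q') (fun l hl h => hl (h ▸ Dvd.intro_left N rfl))
    (Fermat.Agent.LR.DegMain.B1L_TLam N q' hq' hq'N) (Fermat.Agent.LR.DegMain.B2L_TLam N q' hq' hq'N)
    (Fermat.Agent.LR.DegMain.TLam_q_sq N q' hq' hq'N)
    IN INq hIN hINq hadj1 hadj2 hselfN
    (Fermat.Agent.LR.IharaInvFinal.hIhara_all N q' p hq' hq'N hp2 (Ne.symm hq'p))
    (fun m hm T => Fermat.Agent.LR.NonEis.exists_prime E hW hp hp2 hN hirr f 𝔪 hf hmax hpm hcong m hm T)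
    (fun Kj hstab hUsq g hg hgp hc =>
      Fermat.Agent.LR.S41Of.s41_of_kernel_class hp hq' Kj
        (fun l _ h2 _ x hx => hstab l (fun h => h2 (h ▸ Dvd.intro_left N rfl)) x hx) hUsq g hg hgp hc)

end Fermat.Agent.S41
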