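import Fermat.Statements.S49
import Fermat.Agent.S49.Assemble

set_option autoImplicit false
open CuspForm EisensteinWeightOne CongruenceSubgroup ModularFormClass
open FLT FLT.AbstractIntegralStructure

namespace Fermat.Agent.S49

theorem result
    {N : ℕ} [NeZero N] (h : CuspForm.HasIntegralBasis N) {a : ℕ → ℤ}
    (heig : FormalHecke.IsEigensystem
      (fun ℓ => if ℓ ∣ N then 0 else ((chiNegThree ℓ : ℤ) : ℤ)) a)
    (hreal : CuspForm.IsLatticeRealized N a) :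
    ∃ (f : CuspForm (Gamma0 N) 2) (_ : f.IsNormalizedEigenform)
      (𝔪' : Ideal (integralClosure ℤ ℂ)), 𝔪'.IsMaximal ∧
      ((3 : ℕ) : integralClosure ℤ ℂ) ∈ 𝔪' ∧
      ∀ (ℓ : ℕ) (_ : ℓ.Prime) (_ : ¬ ℓ ∣ N),
        ∃ c : integralClosure ℤ ℂ, (c : ℂ) = ModularFormClass.qCoeff f ℓ ∧
          c - (a ℓ : integralClosure ℤ ℂ) ∈ 𝔪' := by
  classical
  have := finiteDimensional_of_hasIntegralBasis h
  obtain ⟨f, hfmem, af, haf, hdiv⟩ := hreal
  obtain ⟨𝔪, h𝔪max, h3𝔪⟩ := FLTPrelim.exists_maximalIdeal_natCast_prime_mem Nat.prime_three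
  have hfL : f ∈ CuspForm.intLattice N 2 := by
    rw [← SetLike.mem_coe, ← qIntegralSet_eq]; exact hfmem
  have hafa : ∀ m, (3 : ℤ) ∣ af m - a m := fun m => by
    have h1 := hdiv m
    have h2 := bridgeProduct_coeff a m
    have : af m - a m = (af m - (PowerSeries.coeff m) (bridgeProduct a)) +
        ((PowerSeries.coeff m) (bridgeProduct a) - a m) := by ring
    rw [this]; exact dvd_add h1 h2
  -- the unit condition on the first coefficient
  have hm₀ : ((af 1 : ℤ) : integralClosure ℤ ℂ) ∉ 𝔪 := by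
    intro hmem
    obtain ⟨t, ht⟩ := hafa 1
    rw [heig.1] at ht
    have e : (1 : integralClosure ℤ ℂ) =
        ((af 1 : ℤ) : integralClosure ℤ ℂ) - ((3 : ℕ) : integralClosure ℤ ℂ) * (t : integralClosure ℤ ℂ) := by
      have : af 1 = 1 + 3 * t := by linarith
      rw [this]
      push_cast
      ring
    exact h𝔪max.ne_top ((Ideal.eq_top_iff_one _).mpr
      (e ▸ 𝔪.sub_mem hmem (𝔪.mul_mem_right _ h3𝔪)))
  -- the congruence T_ℓ f ≡ a_ℓ f modulo 3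
  have hcong : ∀ ℓ : Nat.Primes, ∃ y ∈ CuspForm.intLattice N 2,
      heckeFam N ℓ f - ((a ℓ : ℤ) : ℂ) • f = ((3 : ℕ) : ℂ) • y := by
    intro ℓ
    refine ⟨(3 : ℂ)⁻¹ • (heckeFam N ℓ f - ((a ℓ : ℤ) : ℂ) • f), ?_, ?_⟩
    · rw [mem_intLattice_iff']
      intro n
      obtain ⟨w, hw⟩ := eigen_congruence heig hafa ℓ ℓ.2 n
      refine ⟨w, ?_⟩
      have e1 : qCoeff ⇑((3 : ℂ)⁻¹ • (heckeFam N ℓ f - ((a ℓ : ℤ) : ℂ) • f)) n =
          (3 : ℂ)⁻¹ * (qCoeff ⇑(heckeFam N ℓ f) n - ((a ℓ : ℤ) : ℂ) * qCoeff ⇑f n) := by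
        rw [qCoeff_smul']
        congr 1
        have := (qCoeffLin N 2 n).map_sub (heckeFam N ℓ f) (((a ℓ : ℤ) : ℂ) • f)
        simp only [qCoeffLin_apply] at this
        rw [this, qCoeff_smul']
      rw [e1, qCoeff_heckeFam]
      simp only [← haf]
      have hw' := congrArg (Int.cast : ℤ → ℂ) hw
      unfold lvlEps
      by_cases hN : (ℓ : ℕ) ∣ N <;> by_cases hn : (ℓ : ℕ) ∣ n
      · rw [if_pos hN, if_pos hn] at hw' ⊢
        push_cast at hw' ⊢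
        linear_combination (3 : ℂ)⁻¹ * hw'
      · rw [if_pos hN, if_neg hn] at hw' ⊢
        push_cast at hw' ⊢
        linear_combination (3 : ℂ)⁻¹ * hw'
      · rw [if_neg hN, if_pos hn] at hw' ⊢
        push_cast at hw' ⊢
        linear_combination (3 : ℂ)⁻¹ * hw'
      · rw [if_neg hN, if_neg hn] at hw' ⊢
        push_cast at hw' ⊢
        linear_combination (3 : ℂ)⁻¹ * hw'
    · rw [smul_smul]
      norm_num
  obtain ⟨v, lam, hv0, hv, hlam⟩ := deligneSerre (heckeFam N) heckeFam_commute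
    (CuspForm.intLattice N 2) (CuspForm.intLattice_fg N 2) (span_intLattice_eq_top h)
    (fun ℓ x hx => heckeFam_mem_intLattice ℓ x hx) (qCoeffLin N 2 1)
    (fun x hx => (mem_intLattice_iff' x).mp hx 1) 3 𝔪 h𝔪max.isPrime h3𝔪 f (af 1)
    (haf 1).symm hm₀ (fun ℓ => a ℓ) hcong
  obtain ⟨g, hg, hgℓ⟩ := exists_normalizedEigenform_of_eigenvector v hv0
    (fun ℓ => (lam ℓ : ℂ)) hv
  refine ⟨g, hg, 𝔪, h𝔪max, h3𝔪, fun ℓ hℓ _ => ⟨lam ⟨ℓ, hℓ⟩, ?_, hlam ⟨ℓ, hℓ⟩⟩⟩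
  exact (hgℓ ⟨ℓ, hℓ⟩).symm

end Fermat.Agent.S49
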