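import Fermat.Statements.S51
import Fermat.Agent.S51.Assembly
import Fermat.Agent.S51.Three
import Fermat.Agent.S51.FiveStable
import Fermat.Agent.S51.Endgame
import Fermat.Agent.S51.Descent15Final

set_option autoImplicit false
open WeierstrassCurve WeierstrassCurve.Affine WeierstrassCurve.Affine.Point
open CuspForm ModularFormClass UpperHalfPlane
open WeierstrassCurve

namespace Fermat.Agent.S51

/-- If the mod-5 representation is not irreducible, the curve has a rational kernel polynomial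
`X^2 - s1 X + s2` of a 5-isogeny. -/
theorem exists_kernel_poly (W : WeierstrassCurve ℤ) (hΔ : W.Δ ≠ 0)
    (h : ¬ W.ModRepIsIrreducible 5) :
    ∃ s1 s2 : ℚ, r1 (W.map (Int.castRingHom ℚ)) s1 s2 = 0 ∧
      r2 (W.map (Int.castRingHom ℚ)) s1 s2 = 0 ∧ s1 ^ 2 - 4 * s2 ≠ 0 ∧
      ∀ x : ℚ, psi3 (W.map (Int.castRingHom ℚ)) x = 0 → x ^ 2 - s1 * x + s2 ≠ 0 := by
  have hΔ' : (W.map (Int.castRingHom ℚ)).toAffine.Δ ≠ 0 := by
    show (W.map (Int.castRingHom ℚ)).Δ ≠ 0
    rw [WeierstrassCurve.map_Δ, eq_intCast]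
    exact_mod_cast hΔ
  have hnt := FiveExists.nontrivial_torsion_five (W.map (Int.castRingHom ℚ)).toAffine hΔ'
  unfold WeierstrassCurve.ModRepIsIrreducible
    WeierstrassCurve.Affine.Point.GaloisRepIsIrreducible at h
  push Not at h
  obtain ⟨N, hN, hbot, htop⟩ := h hnt
  obtain ⟨x1, x2, hne, h1, h2, hd1, hd2, ⟨s1, hs1⟩, ⟨s2, hs2⟩⟩ :=
    FiveStable.exists_cycle_of_stable (W.map (Int.castRingHom ℚ)).toAffine hΔ' N hN hbot htop
  exact ⟨s1, s2, kernel_poly_of_cycle (W.map (Int.castRingHom ℚ)) x1 x2 hne h1 h2 hd1 hd2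
    s1 s2 hs1 hs2⟩

theorem result (W : WeierstrassCurve ℤ) (hΔ : W.Δ ≠ 0) (hW : W.IsSemistableModel) : W.ModRepIsIrreducible 3 ∨ W.ModRepIsIrreducible 5 := by
  refine result_of_pieces ?_ exists_kernel_poly rat_points_15a1
    lambda_T_cases not_semistable_of_T c4_ne_zero_of_semistable W hΔ hW
  intro W hΔ h
  obtain ⟨x3, hx3⟩ := Three.exists_rat_psi3_root_of_not_irreducible W hΔ h
  exact ⟨x3, hx3⟩

end Fermat.Agent.S51
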