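import Fermat.Statements.S53
import Fermat.Agent.S53.Top
import Fermat.Agent.S53.ProSystem
import Fermat.Agent.S53.LimitRingThms
import Fermat.Agent.S53.LimitRing.Ctors

set_option autoImplicit false
set_option autoImplicit false
open GaloisRep

namespace Fermat.Agent.S53

theorem result
    (𝒪 : Type) [CommRing 𝒪] [IsDomain 𝒪] [IsDiscreteValuationRing 𝒪]
    [IsAdicComplete (IsLocalRing.maximalIdeal 𝒪) 𝒪] [Finite (IsLocalRing.ResidueField 𝒪)]
    (ρbar : ResidualGaloisRep (IsLocalRing.ResidueField 𝒪))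
    (𝒟 : ∀ ⦃A : Type⦄ [CommRing A] [IsLocalRing A] [Algebra 𝒪 A], GaloisRepAdic A → Prop)
    (habs : ρbar.IsAbsolutelyIrreducible)
    (h𝒟 : GaloisRep.IsDeformationCondition 𝒪 𝒟)
    (hbar : 𝒟 (GaloisRepAdic.ofResidualGaloisRep ρbar))
    (hfin : GaloisRep.TangentFinite 𝒪 ρbar 𝒟) :
    Nonempty (GaloisRep.DeformationRingData 𝒪 ρbar 𝒟) := by
  -- rigidification datum: a matrix form of `ρbar` with three normalising positions
  obtain ⟨D, hD⟩ := exists_rigidDatum_isEquiv ρbar habs
  have h0 : 𝒟 D.matRep.toAdic := type_matRep_of_hbar h𝒟 D hD hbar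
  have hrb : IsMatrixFormOf D.rb ρbar :=
    isMatrixFormOf_of_isEquiv D.level
      (res_isEquiv_trans D.matRepOfLevel_toResidual_isEquiv (res_isEquiv_symm hD))
  -- the admissible ideals of the entry ring form a pro-system
  have hF : LimitRing.IsProSystem 𝒪 (admissible D 𝒟) (tanCard ρbar 𝒟) :=
    isProSystem_admissible_of_genCtor ρbar
      (fun F d h1 h2 h3 h4 h5 h6 => LimitRing.IsProSystem.of_generators F d h1 h2 h3 h4 h5 h6)
      h𝒟 hfin hrb h0
  -- the limit ring is a complete Noetherian local `𝒪`-algebra with residue field `k`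
  have : IsLocalRing (LimitRing.limitRing 𝒪 (admissible D 𝒟)) := hF.isLocalRing
  have : IsNoetherianRing (LimitRing.limitRing 𝒪 (admissible D 𝒟)) := hF.isNoetherianRing
  have : IsLocalHom (algebraMap 𝒪 (LimitRing.limitRing 𝒪 (admissible D 𝒟))) :=
    hF.isLocalHom_algebraMap
  have : IsAdicComplete (IsLocalRing.maximalIdeal (LimitRing.limitRing 𝒪 (admissible D 𝒟)))
      (LimitRing.limitRing 𝒪 (admissible D 𝒟)) := hF.isAdicComplete
  exact nonempty_deformationRingData_of_limitRing habs h𝒟 D hD hF.residue_surjective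
    (fun n => hF.finite_quotient_maximalIdeal_pow n)
    (fun a ha => by
      have := ha
      exact hF.exists_ker_proj_le a)

end Fermat.Agent.S53
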