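import Fermat.Statements.S57
import Fermat.Agent.S57.Coord
import Fermat.Agent.S57.FiniteLengthPD
import Fermat.Agent.S57.FreeOfPD
import Fermat.Agent.S57.Final

set_option autoImplicit false
open Algebra Algebra.PatchingLevel

namespace Fermat.Agent.S57

/-- `L.N` is free over `𝒪⟦X₁,…,X_r⟧`. -/
theorem free_N
    {𝒪 : Type} [CommRing 𝒪] [IsDomain 𝒪] [IsDiscreteValuationRing 𝒪]
    {r : ℕ} {R : Type} [CommRing R] [Algebra 𝒪 R]
    {M : Type} [AddCommGroup M] [Module R M] [Nontrivial M]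
    (L : Algebra.PatchingLevel 𝒪 r R M ⊥) :
    Module.Free (MvPowerSeries (Fin r) 𝒪) L.N := by
  obtain ⟨ϖ, hϖ⟩ := IsDiscreteValuationRing.exists_irreducible 𝒪
  have := Coord.finite_N L
  have := Coord.nontrivial_N L
  have hpd := FLPD.hasProjectiveDimensionLE_of_isFiniteLength (r + 1)
    (RegSeq.hasProjectiveDimensionLE_residue (𝒪 := 𝒪) r) _ (Coord.isFiniteLength_quot_ys L hϖ)
  rw [← Coord.length_ys L ϖ] at hpd
  exact FreeOfPD.free_of_isWeaklyRegular_of_hasProjectiveDimensionLE L.N (Coord.ys L ϖ)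
    (Coord.isWeaklyRegular_ys L hϖ.ne_zero) (Coord.mem_maximalIdeal_of_mem_ys L hϖ) hpd

theorem result
    {𝒪 : Type} [CommRing 𝒪] [IsDomain 𝒪] [IsDiscreteValuationRing 𝒪]
    {r : ℕ} {R : Type} [CommRing R] [Algebra 𝒪 R]
    {M : Type} [AddCommGroup M] [Module R M] [Nontrivial M]
    (L : Algebra.PatchingLevel 𝒪 r R M ⊥) :
    Module.Free R M ∧ Module.annihilator R M = ⊥ ∧
      RingHom.ker L.ψ = Ideal.span (Set.range fun i : Fin r => L.φ (MvPowerSeries.X i)) := by
  have := free_N L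
  exact Final.result_of_free L

end Fermat.Agent.S57
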